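import Fermat.Agent.LT.T5.H40.HS0Top
import Fermat.Agent.LT.T5.H873.KerSum

/-!
# Row LT, tower T5, sub-leaf T5.02d `LowBddC` (helper176)

OFF-MAIN.  `lowBddC176 : T1.DiscreteC K → T1.AdNormC K → T1.SiegelCompactC K → H40.LowBddC K`
and `lowBddC_of_T1Out176 : T1.T1Out K → H40.LowBddC K`.

Imports: byte-identical copies of `T5/H40/HS0Top.lean` (helper40@08c177f1b) and
`T5/H873/KerSum.lean` (helper873, as vendored in helper40@08c177f1b).

## Route (shorter than the one of the row: no Fujisaki, no bound on `y`)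

* `bdd_ker0_compact176`: for a COMPACT set `U` the kernel `K_φ(x, y)` is bounded for `x ∈ U` and
  ALL `y` (the count of `H873.bdd_ker0_873` is uniform in `x ∈ U`: two lattice elements with a
  non-zero summand have their quotient in the compact set `U S (U S)⁻¹`, `S = supp φ`).
* `x = β z a ω` (`T1.SiegelCompactC`), `K_φ(β z a ω, y) = K_φ(a ω, z⁻¹ y)` (re-indexing, `z`
  central), and `a ω` lies in the compact set `{diag(s, 1) : s₁ ≤ s ≤ s₂} · Ω`.
* the ray `u ↦ diag(e^u, 1)` (at the infinite places, `1` at the finite places) is a continuous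
  map `ℝ → GL₂(𝔸_K)` (`continuous_rayG176`) and `T1.IsRay K a s` determines `a`
  (`isRay_unique176`).
-/

set_option autoImplicit false
set_option linter.unusedSectionVars false

open IsDedekindDomain NumberField MeasureTheory
open scoped MatrixGroups ComplexConjugate Topology

noncomputable section

namespace Fermat.Agent.LT.T5.H176

open Fermat.Agent.LT.H556.A0 Fermat.Agent.LT.T5

attribute [local instance] Fermat.Agent.LT.T5.instMeasurableSpaceG

variable {K : Type} [Field K] [NumberField K]

/-! ## 1. The kernel is bounded for `x` in a compact set, uniformly in `y` -/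

/-- **The kernel is bounded on `U × G` for compact `U`.** -/
theorem bdd_ker0_compact176 (hD : T1.DiscreteC K) (hN : T1.AdNormC K)
    {r : G K} (hr : IsRayGen r) {φ : G K → ℂ} (hφc : Continuous φ)
    (hφs : HasCompactSupport φ) {U : Set (G K)} (hU : IsCompact U) :
    ∃ B : ℝ, ∀ x ∈ U, ∀ y : G K, ‖ker0 r φ x y‖ ≤ B := by
  obtain ⟨M, hM⟩ := hφs.exists_bound_of_continuous hφc
  have hM0 : 0 ≤ M := le_trans (norm_nonneg _) (hM 1)
  have hV : IsCompact ((fun p : G K × G K => p.1 * p.2) '' (U ×ˢ tsupport φ)) :=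
    (hU.prod hφs).image (continuous_fst.mul continuous_snd)
  -- the set of quotients
  have hT := H873.finite_lat873 hD hN hr (H873.isCompact_box873 hφs hU hV)
  refine ⟨hT.toFinset.card * M, fun x hx y => ?_⟩
  have hfin := H873.finite_lat873 hD hN hr
    (H873.isCompact_box873 hφs (isCompact_singleton (x := x)) (isCompact_singleton (x := y)))
  classical
  set S := hfin.toFinset.filter (fun i => H873.term873 r φ x y i ≠ 0) with hSdef
  have hS : ∀ i ∉ S, H873.term873 r φ x y i = 0 := by
    intro i hi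
    by_contra hne
    apply hi
    rw [hSdef, Finset.mem_filter]
    exact ⟨hfin.mem_toFinset.mpr
      (H873.lat_mem_box873 hr (Set.mem_singleton x) (Set.mem_singleton y) hne), hne⟩
  rw [H873.ker0_eq_sum873 S hS]
  have hcard : S.card ≤ hT.toFinset.card := by
    rcases S.eq_empty_or_nonempty with h0 | ⟨j, hj⟩
    · rw [h0]; simp
    · have hjne : H873.term873 r φ x y j ≠ 0 := (Finset.mem_filter.mp hj).2
      obtain ⟨c₀, hc₀, he₀⟩ := H873.lat_mem_of_term_ne873 hr hjne
      refine Finset.card_le_card_of_injOn (fun i => (i.1 * j.1⁻¹, i.2 - j.2)) ?_ ?_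
      · intro i hi
        have hine : H873.term873 r φ x y i ≠ 0 := (Finset.mem_filter.mp hi).2
        obtain ⟨c, hc, he⟩ := H873.lat_mem_of_term_ne873 hr hine
        rw [Finset.mem_coe, hT.mem_toFinset, Set.mem_ofPred_eq, H873.lat_div873 hr, he, he₀]
        refine ⟨(x, c, x * c₀), ⟨hx, hc, ⟨(x, c₀), ⟨hx, hc₀⟩, rfl⟩⟩, ?_⟩
        simp only
        group
      · intro a _ b _ hab
        simp only [Prod.mk.injEq] at hab
        refine Prod.ext ?_ ?_
        · exact mul_right_cancel hab.1
        · have := hab.2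
          omega
  calc ‖∑ i ∈ S, H873.term873 r φ x y i‖ ≤ ∑ i ∈ S, ‖H873.term873 r φ x y i‖ :=
        norm_sum_le _ _
    _ ≤ ∑ _i ∈ S, M := Finset.sum_le_sum (fun i _ => hM _)
    _ = S.card * M := by rw [Finset.sum_const, nsmul_eq_mul]
    _ ≤ hT.toFinset.card * M := by
        apply mul_le_mul_of_nonneg_right _ hM0
        exact_mod_cast hcard

/-! ## 2. Central elements -/

/-- Scalar matrices are central. -/
theorem central_comm176 {z : G K} (hz : T1.IsCentral K z) (g : G K) : z * g = g * z := by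
  obtain ⟨c, hc⟩ := hz
  apply Units.ext
  show (z : Matrix (Fin 2) (Fin 2) (Adl K)) * (g : Matrix (Fin 2) (Fin 2) (Adl K))
      = (g : Matrix (Fin 2) (Fin 2) (Adl K)) * (z : Matrix (Fin 2) (Fin 2) (Adl K))
  rw [hc]
  ext i j
  fin_cases i <;> fin_cases j <;> simp [Matrix.mul_apply, Fin.sum_univ_two, mul_comm]

/-- A central element moves from the first variable of the kernel to the second. -/
theorem ker0_central176 (r : G K) (φ : G K → ℂ) {z : G K} (hz : ∀ g : G K, z * g = g * z)
    (x y : G K) : ker0 r φ (z * x) y = ker0 r φ x (z⁻¹ * y) := by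
  unfold ker0
  congr 1
  funext γ
  congr 1
  have h1 : z⁻¹ * ratG γ = ratG γ * z⁻¹ := by
    have := hz (ratG γ)
    calc z⁻¹ * ratG γ = z⁻¹ * (ratG γ * z) * z⁻¹ := by group
      _ = z⁻¹ * (z * ratG γ) * z⁻¹ := by rw [this]
      _ = ratG γ * z⁻¹ := by group
  calc (z * x)⁻¹ * ratG γ * y = x⁻¹ * (z⁻¹ * ratG γ) * y := by
        rw [mul_inv_rev]; simp only [mul_assoc]
    _ = x⁻¹ * (ratG γ * z⁻¹) * y := by rw [h1]
    _ = x⁻¹ * ratG γ * (z⁻¹ * y) := by simp only [mul_assoc]

/-- The kernel at a point `β z x'` of the Siegel decomposition. -/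
theorem ker0_siegel176 (r : G K) (φ : G K → ℂ) (β : GL (Fin 2) K) {z : G K}
    (hz : T1.IsCentral K z) (x' y : G K) :
    ker0 r φ (T1.ratG K β * z * x') y = ker0 r φ x' (z⁻¹ * y) := by
  have h0 : T1.ratG K β * z * x' = ratG β * (z * x') := by
    rw [mul_assoc]; rfl
  have h1 : ker0 r φ (ratG β * (z * x')) y = ker0 r φ (z * x') y := by
    have := H40.ker0_rat_inv40 r φ β 1 (z * x') y
    rwa [map_one, one_mul] at this
  rw [h0, h1, ker0_central176 r φ (central_comm176 hz)]

/-! ## 3. The ray `diag(s, 1)` -/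

/-- Real numbers in the completion at an infinite place. -/
theorem exists_realInf176 (w : InfinitePlace K) (s : ℝ) :
    ∃ x : w.Completion, InfinitePlace.Completion.extensionEmbedding w x = (s : ℂ) := by
  by_cases hw : w.IsReal
  · obtain ⟨x, hx⟩ := InfinitePlace.Completion.surjective_extensionEmbeddingOfIsReal hw s
    exact ⟨x, by rw [← InfinitePlace.Completion.extensionEmbeddingOfIsReal_apply hw, hx]⟩
  · exact InfinitePlace.Completion.surjective_extensionEmbedding_of_isComplex
      (InfinitePlace.not_isReal_iff_isComplex.mp hw) _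

/-- The real number `s` in the completion at `w`. -/
def realInf176 (w : InfinitePlace K) (s : ℝ) : w.Completion :=
  Classical.choose (exists_realInf176 w s)

theorem extensionEmbedding_realInf176 (w : InfinitePlace K) (s : ℝ) :
    InfinitePlace.Completion.extensionEmbedding w (realInf176 w s) = (s : ℂ) :=
  Classical.choose_spec (exists_realInf176 w s)

theorem continuous_realInf176 (w : InfinitePlace K) : Continuous (realInf176 w) := by
  have hi : Topology.IsInducing (InfinitePlace.Completion.extensionEmbedding w) :=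
    (InfinitePlace.Completion.isometry_extensionEmbedding w).isEmbedding.isInducing
  rw [hi.continuous_iff]
  have : (InfinitePlace.Completion.extensionEmbedding w) ∘ (realInf176 w)
      = fun s : ℝ => (s : ℂ) := by
    funext s
    exact extensionEmbedding_realInf176 w s
  rw [this]
  exact Complex.continuous_ofReal

/-- The adele which is `s` at every infinite place and `1` at every finite place. -/
def rayAdl176 (s : ℝ) : Adl K := ((fun w => realInf176 w s), 1)

theorem infHom_rayAdl176 (w : InfinitePlace K) (s : ℝ) :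
    infHom w (rayAdl176 s : Adl K) = (s : ℂ) :=
  extensionEmbedding_realInf176 w s

theorem finHom_rayAdl176 (v : HeightOneSpectrum (𝓞 K)) (s : ℝ) :
    finHom v (rayAdl176 s : Adl K) = 1 := rfl

theorem continuous_rayAdl176 : Continuous (rayAdl176 : ℝ → Adl K) := by
  unfold rayAdl176
  exact Continuous.prodMk (continuous_pi (fun w => continuous_realInf176 w)) continuous_const

theorem rayAdl_mul176 (s t : ℝ) (hst : s * t = 1) :
    (rayAdl176 s : Adl K) * rayAdl176 t = 1 := by
  apply H277.adl_ext277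
  · intro w
    rw [map_mul, infHom_rayAdl176, infHom_rayAdl176, map_one, ← Complex.ofReal_mul, hst,
      Complex.ofReal_one]
  · intro v
    rw [map_mul, finHom_rayAdl176, finHom_rayAdl176, map_one, one_mul]

/-- The point `diag(e^u, 1)` of the ray. -/
def rayG176 (u : ℝ) : G K :=
  ⟨!![rayAdl176 (Real.exp u), 0; 0, 1], !![rayAdl176 (Real.exp (-u)), 0; 0, 1],
    by
      have h := rayAdl_mul176 (K := K) (Real.exp u) (Real.exp (-u))
        (by rw [← Real.exp_add, add_neg_cancel, Real.exp_zero])
      ext i j; fin_cases i <;> fin_cases j <;> simp [Matrix.mul_apply, Fin.sum_univ_two, h],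
    by
      have h := rayAdl_mul176 (K := K) (Real.exp (-u)) (Real.exp u)
        (by rw [← Real.exp_add, neg_add_cancel, Real.exp_zero])
      ext i j; fin_cases i <;> fin_cases j <;> simp [Matrix.mul_apply, Fin.sum_univ_two, h]⟩

theorem rayG_coe176 (u : ℝ) :
    ((rayG176 u : G K) : Matrix (Fin 2) (Fin 2) (Adl K)) = !![rayAdl176 (Real.exp u), 0; 0, 1] :=
  rfl

theorem continuous_rayMat176 :
    Continuous (fun u : ℝ => (!![rayAdl176 (Real.exp u), 0; 0, 1] :
      Matrix (Fin 2) (Fin 2) (Adl K))) := by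
  refine continuous_matrix (fun i j => ?_)
  fin_cases i <;> fin_cases j
  · exact continuous_rayAdl176.comp Real.continuous_exp
  · exact continuous_const
  · exact continuous_const
  · exact continuous_const

theorem continuous_rayG176 : Continuous (rayG176 : ℝ → G K) := by
  rw [Units.continuous_iff]
  refine ⟨continuous_rayMat176, ?_⟩
  have h : (fun u : ℝ => (((rayG176 u : G K)⁻¹ : G K) : Matrix (Fin 2) (Fin 2) (Adl K)))
      = (fun u : ℝ => (!![rayAdl176 (Real.exp u), 0; 0, 1] :
          Matrix (Fin 2) (Fin 2) (Adl K))) ∘ (fun u : ℝ => -u) := by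
    funext u
    rfl
  rw [h]
  exact continuous_rayMat176.comp continuous_neg

theorem isRay_rayG176 (u : ℝ) : T1.IsRay K (rayG176 u) (Real.exp u) := by
  refine ⟨fun v => ?_, fun w => ?_⟩
  · show finComp v (rayG176 u) = 1
    rw [finComp_eq_map, rayG_coe176]
    ext i j
    fin_cases i <;> fin_cases j <;> simp [finHom_rayAdl176]
  · rw [infComp_eq_map, rayG_coe176]
    ext i j
    fin_cases i <;> fin_cases j <;> simp [infHom_rayAdl176]

/-- `IsRay K a s` determines `a`. -/
theorem isRay_unique176 {a a' : G K} {s : ℝ} (h : T1.IsRay K a s) (h' : T1.IsRay K a' s) :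
    a = a' := by
  apply Units.ext
  ext i j
  apply H277.adl_ext277
  · intro w
    have e1 := congrFun (congrFun (h.2 w) i) j
    have e2 := congrFun (congrFun (h'.2 w) i) j
    exact e1.trans e2.symm
  · intro v
    have e1 := congrFun (congrFun (h.1 v) i) j
    have e2 := congrFun (congrFun (h'.1 v) i) j
    exact e1.trans e2.symm

/-- The points of the ray with parameter in a compact interval of `(0, ∞)` form a compact set. -/
theorem isCompact_ray176 (s₁ s₂ : ℝ) :
    IsCompact ((rayG176 : ℝ → G K) '' Set.Icc (Real.log s₁) (Real.log s₂)) :=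
  isCompact_Icc.image continuous_rayG176

theorem mem_ray176 {a : G K} {s s₁ s₂ : ℝ} (hs₁ : 0 < s₁) (h₁ : s₁ ≤ s) (h₂ : s ≤ s₂)
    (h : T1.IsRay K a s) :
    a ∈ (rayG176 : ℝ → G K) '' Set.Icc (Real.log s₁) (Real.log s₂) := by
  have hs : 0 < s := lt_of_lt_of_le hs₁ h₁
  refine ⟨Real.log s, ⟨Real.log_le_log hs₁ h₁, Real.log_le_log hs h₂⟩, ?_⟩
  have h' := isRay_rayG176 (K := K) (Real.log s)
  rw [Real.exp_log hs] at h'
  exact isRay_unique176 h' h

/-! ## 4. The sub-leaf -/

/-- **T5.02d `LowBddC`**, conditional on interface Props of tower T1.  (The bounds on the height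
of `y` are not used.) -/
theorem lowBddC176 (hD : T1.DiscreteC K) (hN : T1.AdNormC K) (hS : T1.SiegelCompactC K) :
    H40.LowBddC K := by
  intro r hr φ hφc hφs c T hc
  obtain ⟨Ω, m, M, hΩ, hm, hmM, hSie⟩ := hS c hc
  set s₁ : ℝ := min 1 (m * c) with hs₁
  set s₂ : ℝ := max 1 (M * T) with hs₂
  have hs₁pos : 0 < s₁ := lt_min one_pos (mul_pos hm hc)
  have hn : Module.finrank ℚ K ≠ 0 := (Module.finrank_pos).ne'
  have hU : IsCompact ((fun p : G K × G K => p.1 * p.2) ''
      (((rayG176 : ℝ → G K) '' Set.Icc (Real.log s₁) (Real.log s₂)) ×ˢ Ω)) :=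
    ((isCompact_ray176 s₁ s₂).prod hΩ).image (continuous_fst.mul continuous_snd)
  obtain ⟨B, hB⟩ := bdd_ker0_compact176 hD hN hr hφc hφs hU
  refine ⟨B, ?_⟩
  intro x y tx ty hx _ hcx hxT _ _
  obtain ⟨β, z, a, ω, s, _, hz, hs, ha, hω, hxe, hlo, hhi⟩ := hSie x tx hx hcx
  have hM : 0 < M := lt_of_lt_of_le hm hmM
  have h1 : s₁ ≤ s := by
    rcases le_total 1 s with h | h
    · exact le_trans (min_le_left _ _) h
    · have h2 : s ^ Module.finrank ℚ K ≤ s := pow_le_of_le_one hs.le h hn
      have h3 : m * c ≤ m * tx := mul_le_mul_of_nonneg_left hcx hm.le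
      exact le_trans (min_le_right _ _) (le_trans h3 (le_trans hlo h2))
  have h2 : s ≤ s₂ := by
    rcases le_total s 1 with h | h
    · exact le_trans h (le_max_left _ _)
    · have h2 : s ≤ s ^ Module.finrank ℚ K := le_self_pow₀ h hn
      have h3 : M * tx ≤ M * T := mul_le_mul_of_nonneg_left hxT hM.le
      exact le_trans (le_trans h2 (le_trans hhi h3)) (le_max_right _ _)
  have hmem : a * ω ∈ (fun p : G K × G K => p.1 * p.2) ''
      (((rayG176 : ℝ → G K) '' Set.Icc (Real.log s₁) (Real.log s₂)) ×ˢ Ω) :=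
    ⟨(a, ω), ⟨mem_ray176 hs₁pos h1 h2 ha, hω⟩, rfl⟩
  have hk : ker0 r φ x y = ker0 r φ (a * ω) (z⁻¹ * y) := by
    rw [hxe, mul_assoc (T1.ratG K β * z) a ω]
    exact ker0_siegel176 r φ β hz (a * ω) y
  rw [hk]
  exact hB (a * ω) hmem (z⁻¹ * y)

/-- **T5.02d `LowBddC`** from the output of tower T1. -/
theorem lowBddC_of_T1Out176 (h : T1.T1Out K) : H40.LowBddC K :=
  lowBddC176 h.discrete h.adNorm h.siegelCompact

end Fermat.Agent.LT.T5.H176

end
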